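/-
GATE-Z / seam (HGAL) (helper42), generic part: PUSH-FORWARD of divisors and CORRESPONDENCES
commute with intertwined semilinear automorphisms.

`F ⊂ F'` an integral extension of function fields over `K` (prelude API), `g`, `g'` semilinear
automorphisms of `F`, `F'` with `g' (ι x) = ι (g x)` (`S37PullbackEquiv.Intertwines`), all places
of `F` of positive degree.  Then `f(g' • w) = f(w)` and
`pushforward F (g' • D) = g • pushforward F D`.  In the `Along` language: a correspondence
`ψ_* φ^*` (`φ ψ : F →ₐ[K] F'`) commutes with `(g, g')` as soon as both `φ` and `ψ` intertwine them,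
on divisors and on `Pic⁰`.
-/
import Mathlib
import Fermat.Prelude.Def_AlgebraicCurve_Correspondence
import Fermat.Prelude.Def_AlgebraicCurve_BaseChangeGalois
import Fermat.Agent.GJ.S37.PullbackEquiv

set_option autoImplicit false
set_option linter.unusedSectionVars false

noncomputable section

open AlgebraicCurve

namespace Fermat.Agent.GZ.HGal

open Fermat.Agent.GJ.S37PullbackEquiv

section Push

variable {K F F' : Type*} [Field K] [Field F] [Field F']
  [Algebra K F] [Algebra K F'] [Algebra F F'] [IsScalarTower K F F']
  [Algebra.IsIntegral F F']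

variable {g : SemilinearAut K F} {g' : SemilinearAut K F'}

/-- residue degrees are invariant. -/
theorem inertiaDeg_smul (hdeg : ∀ v : Place K F, 0 < v.deg) (h : Intertwines g g')
    (w : Place K F') : (g' • w).inertiaDeg F = w.inertiaDeg F := by
  have h1 := (g' • w).deg_restrict_mul_inertiaDeg (F := F)
  have h2 := w.deg_restrict_mul_inertiaDeg (F := F)
  rw [restrict_smul h, SemilinearAut.deg_smul, SemilinearAut.deg_smul, ← h2] at h1
  exact Nat.eq_of_mul_eq_mul_left (hdeg _) h1

/-- **Push-forward is equivariant.** -/
theorem pushforward_smul (hdeg : ∀ v : Place K F, 0 < v.deg) (h : Intertwines g g')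
    (D : Divisor K F') :
    Divisor.pushforward F (g' • D) = g • Divisor.pushforward F D := by
  induction D using Finsupp.induction with
  | zero => simp
  | single_add w n D _ _ ih =>
    rw [smul_add, map_add, map_add, smul_add, ih, SemilinearAut.smul_single,
      Divisor.pushforward_single, Divisor.pushforward_single, SemilinearAut.smul_single,
      restrict_smul h, inertiaDeg_smul hdeg h]

end Push

section Along

variable {K F F' : Type*} [Field K] [Field F] [Field F'] [Algebra K F] [Algebra K F']
  [HasPrincipalDivisors K F']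
  (φ ψ : F →ₐ[K] F') (hφ : φ.toRingHom.IsIntegral) (hψ : ψ.toRingHom.IsIntegral)
  {g : SemilinearAut K F} {g' : SemilinearAut K F'}

/-- pull-back along `φ` is equivariant. -/
theorem pullbackAlong_smul (h : SemilinearAut.IntertwinesAlong φ.toRingHom g g')
    (D : Divisor K F) :
    Divisor.pullbackAlong φ hφ (g • D) = g' • Divisor.pullbackAlong φ hφ D := by
  let _ := algebraAlong φ
  have := isScalarTower_along φ
  have := isIntegral_along φ hφ
  exact pullback_smul (F' := F') (fun x => h x) D

/-- push-forward along `ψ` is equivariant. -/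
theorem pushforwardAlong_smul (hdeg : ∀ v : Place K F, 0 < v.deg)
    (h : SemilinearAut.IntertwinesAlong ψ.toRingHom g g') (D : Divisor K F') :
    Divisor.pushforwardAlong ψ hψ (g' • D) = g • Divisor.pushforwardAlong ψ hψ D := by
  let _ := algebraAlong ψ
  have := isScalarTower_along ψ
  have := isIntegral_along ψ hψ
  exact pushforward_smul (F' := F') hdeg (fun x => h x) D

/-- **the correspondence `ψ_* φ^*` is equivariant** (divisors). -/
theorem correspondence_smul (hdeg : ∀ v : Place K F, 0 < v.deg)
    (h₁ : SemilinearAut.IntertwinesAlong φ.toRingHom g g')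
    (h₂ : SemilinearAut.IntertwinesAlong ψ.toRingHom g g') (D : Divisor K F) :
    Divisor.correspondence φ ψ hφ hψ (g • D) = g • Divisor.correspondence φ ψ hφ hψ D := by
  rw [Divisor.correspondence_apply, Divisor.correspondence_apply, pullbackAlong_smul φ hφ h₁,
    pushforwardAlong_smul ψ hψ hdeg h₂]

/-- **the correspondence `ψ_* φ^*` is equivariant** (`Pic⁰`). -/
theorem pic0_correspondence_smul (hFI : FundamentalIdentityAlong K φ hφ)
    (hfin : FiniteAlong K ψ) (hN : NormFormulaAlong K ψ hfin)
    (hdeg : ∀ v : Place K F, 0 < v.deg)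
    (h₁ : SemilinearAut.IntertwinesAlong φ.toRingHom g g')
    (h₂ : SemilinearAut.IntertwinesAlong ψ.toRingHom g g') (x : Pic0 K F) :
    Pic0.correspondence φ ψ hφ hψ hFI hfin hN (g • x) =
      g • Pic0.correspondence φ ψ hφ hψ hFI hfin hN x := by
  obtain ⟨D, rfl⟩ := Pic0.mk_surjective x
  rw [SemilinearAut.pic0_smul_mk, Pic0.correspondence_mk, Pic0.correspondence_mk,
    SemilinearAut.pic0_smul_mk]
  congr 1
  apply Subtype.ext
  rw [Pic0.coe_degZeroCorrespondence, SemilinearAut.coe_degZeroSMulHom,
    SemilinearAut.coe_degZeroSMulHom, Pic0.coe_degZeroCorrespondence,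
    correspondence_smul φ ψ hφ hψ hdeg h₁ h₂]

end Along

end Fermat.Agent.GZ.HGal
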