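/-
GATE-Z / seam (HGAL) (helper42; asked by helper36, board 5950): **the Hecke operators on
`J₀(N)(ℚ̄)` commute with the Galois action.**

  `heckeOperatorBar N q (σ • x) = σ • heckeOperatorBar N q x`   (ALL `N`, ALL primes `q`, all `x`).

`heckeOperatorBar N q` is the class of the correspondence `α_* β^*` (`GJ/HInputs`), `α` the inclusion
`F_N ⊂ F_{Nq}`, `β : f(q) ↦ f(q^q)`; both commute with the coefficientwise action
`arithmeticGalois`, and pull-back / push-forward of divisors commute with intertwined semilinear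
automorphisms (`GJ/S37/PullbackEquiv`, `GZ/HGal/PushEquiv`).

Corollaries: `T_q` preserves the Galois-fixed points (`heckeOperatorBar_fixed`,
`heckeOperatorBar_mem_fixedPoints`), and every element of the `ℤ`-algebra generated by Hecke
operators commutes with Galois (`adjoin_smul_comm`, `adjoin_heckeOperatorBar_smul`).
-/
import Mathlib
import Fermat.Prelude.Def_ModularCurve_HeckeModule
import Fermat.Prelude.Thm_ModularCurve_coeffMap_qExpand
import Fermat.Agent.GJ.HInputs.Modular
import Fermat.Agent.GJ.S37.AuxPullModular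
import Fermat.Agent.GZ.HGal.PushEquiv

set_option autoImplicit false
set_option synthInstance.maxHeartbeats 400000
set_option maxHeartbeats 1000000

noncomputable section

namespace Fermat.Agent.GZ.HGal

open AlgebraicCurve ModularCurve

section General

variable {L : Type*} [Field L] [Algebra ℚ L] (N ℓ : ℕ) [NeZero N] [NeZero ℓ]

/-- the inclusion `α : F_N → F_{Nℓ}` commutes with the coefficientwise Galois action. -/
theorem intertwines_heckeAlphaBar (σ : L ≃ₐ[ℚ] L) :
    SemilinearAut.IntertwinesAlong (heckeAlphaBar L N ℓ).toRingHom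
      (arithmeticGalois (modularFunctionFieldFull N) σ)
      (arithmeticGalois (modularFunctionFieldFull (N * ℓ)) σ) := fun x => by
  apply Subtype.ext
  rw [coe_arithmeticGalois_smul]
  change ModularCurve.coeffMap _ ((heckeAlphaBar L N ℓ x : _) : LaurentSeries L)
    = ((heckeAlphaBar L N ℓ (_ • x) : _) : LaurentSeries L)
  rw [coe_heckeAlphaBar, coe_heckeAlphaBar, coe_arithmeticGalois_smul]

/-- the map `β : f(q) ↦ f(q^ℓ)` commutes with the coefficientwise Galois action. -/
theorem intertwines_heckeBetaBar (σ : L ≃ₐ[ℚ] L) :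
    SemilinearAut.IntertwinesAlong (heckeBetaBar L N ℓ).toRingHom
      (arithmeticGalois (modularFunctionFieldFull N) σ)
      (arithmeticGalois (modularFunctionFieldFull (N * ℓ)) σ) := fun x => by
  apply Subtype.ext
  rw [coe_arithmeticGalois_smul]
  change ModularCurve.coeffMap _ (qExpand L ℓ (x : LaurentSeries L))
    = qExpand L ℓ ((arithmeticGalois (modularFunctionFieldFull N) σ • x : _) : LaurentSeries L)
  rw [ModularCurve.coeffMap_qExpand, coe_arithmeticGalois_smul]

variable {N ℓ}

/-- the Hecke correspondence on divisors commutes with Galois. -/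
theorem heckeDivBar_smul (hα : HeckeAlphaBarIntegral L N ℓ) (hβ : HeckeBetaBarIntegral L N ℓ)
    [HasPrincipalDivisors L (laurentBaseChange L (modularFunctionFieldFull (N * ℓ)))]
    (hdeg : ∀ v : Place L (laurentBaseChange L (modularFunctionFieldFull N)), 0 < v.deg)
    (σ : L ≃ₐ[ℚ] L) (D : Divisor L (laurentBaseChange L (modularFunctionFieldFull N))) :
    heckeDivBar hα hβ (arithmeticGalois (modularFunctionFieldFull N) σ • D) =
      arithmeticGalois (modularFunctionFieldFull N) σ • heckeDivBar hα hβ D :=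
  correspondence_smul _ _ hβ hα hdeg (intertwines_heckeBetaBar N ℓ σ)
    (intertwines_heckeAlphaBar N ℓ σ) D

/-- the Hecke correspondence on `Pic⁰` commutes with Galois. -/
theorem heckePic0Bar_smul (hα : HeckeAlphaBarIntegral L N ℓ) (hβ : HeckeBetaBarIntegral L N ℓ)
    [HasPrincipalDivisors L (laurentBaseChange L (modularFunctionFieldFull (N * ℓ)))]
    (hFI : FundamentalIdentityAlong L (heckeBetaBar L N ℓ) hβ)
    (hfin : FiniteAlong L (heckeAlphaBar L N ℓ))
    (hN : NormFormulaAlong L (heckeAlphaBar L N ℓ) hfin)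
    (hdeg : ∀ v : Place L (laurentBaseChange L (modularFunctionFieldFull N)), 0 < v.deg)
    (σ : L ≃ₐ[ℚ] L) (x : Pic0 L (laurentBaseChange L (modularFunctionFieldFull N))) :
    heckePic0Bar hα hβ hFI hfin hN (σ • x) = σ • heckePic0Bar hα hβ hFI hfin hN x := by
  rw [galois_smul_pic0_def, galois_smul_pic0_def]
  exact pic0_correspondence_smul _ _ hβ hα hFI hfin hN hdeg (intertwines_heckeBetaBar N ℓ σ)
    (intertwines_heckeAlphaBar N ℓ σ) x

end General

section Bar

variable (N : ℕ) [NeZero N]

local notation "GQ" => (AlgebraicClosure ℚ ≃ₐ[ℚ] AlgebraicClosure ℚ)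

/-- **(HGAL)**: the Hecke operators on `J₀(N)(ℚ̄)` commute with the Galois action. -/
theorem heckeOperatorBar_smul (q : Nat.Primes) (σ : GQ) (x : JZero N) :
    heckeOperatorBar N q (σ • x) = σ • heckeOperatorBar N q x := by
  haveI : NeZero (q : ℕ) := ⟨q.2.ne_zero⟩
  obtain ⟨hα, hβ, hP, hfin, hFI, hNF, hop⟩ :=
    Fermat.Agent.GJ.HInputs.exists_heckeOperatorBar_eq N q
  haveI := hP
  rw [hop, hop]
  exact heckePic0Bar_smul hα hβ hFI hfin hNF
    (fun v => by rw [Fermat.Agent.GJ.S37Aux.deg_eq_one_bar v]; exact Nat.one_pos) σ x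

/-- `T_q` preserves Galois-fixed classes. -/
theorem heckeOperatorBar_fixed (q : Nat.Primes) {z : JZero N} (hz : ∀ σ : GQ, σ • z = z)
    (σ : GQ) : σ • heckeOperatorBar N q z = heckeOperatorBar N q z := by
  rw [← heckeOperatorBar_smul, hz σ]

/-- `T_q` preserves the Mordell–Weil group `J₀(N)(ℚ̄)^{G_ℚ}`. -/
theorem heckeOperatorBar_mem_fixedPoints (q : Nat.Primes) {z : JZero N}
    (hz : z ∈ FixedPoints.addSubgroup GQ (JZero N)) :
    heckeOperatorBar N q z ∈ FixedPoints.addSubgroup GQ (JZero N) :=
  fun σ => heckeOperatorBar_fixed N q (fun τ => hz τ) σ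

end Bar

section Adjoin

/-- an element of the `ℤ`-algebra generated by additive endomorphisms commuting with a
distributive action commutes with it. -/
theorem adjoin_smul_comm {G M : Type*} [Monoid G] [AddCommGroup M] [DistribMulAction G M]
    (S : Set (Module.End ℤ M)) (hS : ∀ T ∈ S, ∀ (σ : G) (x : M), T (σ • x) = σ • T x)
    {t : Module.End ℤ M} (ht : t ∈ Algebra.adjoin ℤ S) (σ : G) (x : M) :
    t (σ • x) = σ • t x := by
  induction ht using Algebra.adjoin_induction generalizing x with
  | mem T hT => exact hS T hT σ x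
  | algebraMap n =>
    rw [Module.algebraMap_end_apply, Module.algebraMap_end_apply]
    exact (map_zsmul (DistribSMul.toAddMonoidHom M σ) n x).symm
  | add s t _ _ hs ht => rw [LinearMap.add_apply, LinearMap.add_apply, hs, ht, smul_add]
  | mul s t _ _ hs ht => rw [Module.End.mul_apply, Module.End.mul_apply, ht, hs]

variable (N : ℕ) [NeZero N]

local notation "GQ" => (AlgebraicClosure ℚ ≃ₐ[ℚ] AlgebraicClosure ℚ)

/-- every element of the algebra generated by Hecke operators commutes with Galois. -/
theorem adjoin_heckeOperatorBar_smul {S : Set (Module.End ℤ (JZero N))}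
    (hS : ∀ T ∈ S, ∃ q : Nat.Primes, T = heckeOperatorBar N q)
    {t : Module.End ℤ (JZero N)} (ht : t ∈ Algebra.adjoin ℤ S) (σ : GQ) (x : JZero N) :
    t (σ • x) = σ • t x := by
  refine adjoin_smul_comm S ?_ ht σ x
  intro T hT τ y
  obtain ⟨q, rfl⟩ := hS T hT
  exact heckeOperatorBar_smul N q τ y

/-- every element of the algebra generated by Hecke operators preserves the Mordell–Weil group. -/
theorem adjoin_heckeOperatorBar_fixed {S : Set (Module.End ℤ (JZero N))}
    (hS : ∀ T ∈ S, ∃ q : Nat.Primes, T = heckeOperatorBar N q)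
    {t : Module.End ℤ (JZero N)} (ht : t ∈ Algebra.adjoin ℤ S) {z : JZero N}
    (hz : ∀ σ : GQ, σ • z = z) (σ : GQ) : σ • t z = t z := by
  rw [← adjoin_heckeOperatorBar_smul N hS ht, hz σ]

end Adjoin

end Fermat.Agent.GZ.HGal
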